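/-
S48 (Deligne–Serre), brick E final (`E.Res`), part (c) of DS ruling #2 (helper248).

The product `g = f · G` of the weight one cusp form `f` on `Γ₁(N)` of the frozen statement (formal
Hecke relations with character `ε`) with ANY weight one modular form `G` on `Γ₁(l)` with nebentypus
`χ`, as a cusp form of weight `2` on `Γ₁(N l)`:

* `prodFG f G : CuspForm (Gamma1 (N * l)) 2`, `coe_prodFG : ⇑(prodFG f G) = ⇑f * ⇑G`;
* `qCoeff_prodFG`, `qCoeff_prodFG_cauchy` : its `q`-coefficients are the Cauchy product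
  (`Denom.cauchy` when the coefficients of `G` are algebraic integers `c n`);
* `diamond_prodFG`, `diamond_prodFG_prime` : `⟨u⟩ g = ε(u mod N) χ(u mod l) • g`;
* `qCoeff_heckeT1_prodFG` : `a_n(T_q g) = b_{qn} + q ε(q) χ(q) b_{n/q}`, `b = Denom.cauchy a c`
  (the shape of `Denom.step2`);
* `diamond_heckeT1_prodFG`, `diamond_heckeT1_sub_prodFG` : `T_q g` and `T_q g - α g` are again
  `⟨u⟩`-eigenvectors with the same eigenvalue.
-/
import Mathlib
import Fermat.Agent.S48.Neben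
import Fermat.Agent.S48.Hecke1
import Fermat.Agent.S48.Denom

set_option autoImplicit false

namespace Fermat.Agent.S48.ERes.FG

open CongruenceSubgroup Matrix.SpecialLinearGroup UpperHalfPlane ModularForm ModularFormClass
open scoped MatrixGroups ModularForm

/-- the algebraic integers of `ℂ` -/
local notation "𝔸" => integralClosure ℤ ℂ

/-- `g = f · G` as a cusp form of weight `2` and level `Γ₁(N l)`. -/
noncomputable def prodFG {N l : ℕ} (f : CuspForm (Gamma1 N) 1) (G : ModularForm (Gamma1 l) 1) :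
    CuspForm (Gamma1 (N * l)) 2 :=
  CuspForm.mcast (by norm_num) (Hecke1.mulLevel f G)

lemma coe_prodFG {N l : ℕ} (f : CuspForm (Gamma1 N) 1) (G : ModularForm (Gamma1 l) 1) :
    ⇑(prodFG f G) = ⇑f * ⇑G := rfl

/-- The `q`-coefficients of `f · G`: Cauchy product. -/
theorem qCoeff_prodFG {N l : ℕ} (f : CuspForm (Gamma1 N) 1) (G : ModularForm (Gamma1 l) 1)
    (n : ℕ) :
    qCoeff (prodFG f G) n = ∑ x ∈ Finset.HasAntidiagonal.antidiagonal n, qCoeff f x.1 * qCoeff G x.2 :=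
  Hecke1.qCoeff_mulLevel f G n

/-- The `q`-coefficients of `f · G` in the vocabulary of `Denom.step2`. -/
theorem qCoeff_prodFG_cauchy {N l : ℕ} (f : CuspForm (Gamma1 N) 1) (G : ModularForm (Gamma1 l) 1)
    (c : ℕ → 𝔸) (hc : ∀ n, qCoeff G n = (c n : ℂ)) (n : ℕ) :
    qCoeff (prodFG f G) n = Denom.cauchy (qCoeff f) c n := by
  rw [qCoeff_prodFG, Denom.cauchy]
  refine Finset.sum_congr rfl fun x _ => ?_
  rw [hc]

section neben

variable {N l : ℕ} [NeZero N] [NeZero l] (ε : DirichletCharacter ℂ N)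
  (f : CuspForm (Gamma1 N) 1)
  (hT : ∀ p : ℕ, p.Prime → ¬ p ∣ N → ∀ n : ℕ,
    qCoeff f (p * n) + ε (p : ZMod N) * (if p ∣ n then qCoeff f (n / p) else 0)
      = qCoeff f p * qCoeff f n)
  (χ : DirichletCharacter ℂ l) (G : ModularForm (Gamma1 l) 1)
  (hG : ∀ γ : SL(2, ℤ), γ ∈ Gamma0 l → (⇑G) ∣[(1 : ℤ)] γ = χ ((γ 1 1 : ℤ) : ZMod l) • ⇑G)
include hT hG

/-- **Nebentypus of `g = f · G`**: `⟨u⟩ g = ε(u mod N) χ(u mod l) • g`. -/
theorem diamond_prodFG (u : (ZMod (N * l))ˣ) :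
    Hecke1.diamond (N * l) 2 u (prodFG f G)
      = (ε (((u : ZMod (N * l)).cast : ZMod N)) * χ (((u : ZMod (N * l)).cast : ZMod l)))
          • prodFG f G := by
  have hf : ∀ d : (ZMod N)ˣ,
      Hecke1.diamond N 1 d f = (fun d : (ZMod N)ˣ => ε (d : ZMod N)) d • f :=
    fun d => Hecke1.diamond_eq_smul_of_slash f (fun x => ε x) (Neben.slash_eq_smul N ε f hT) d
  have hE : ∀ d : (ZMod l)ˣ,
      Hecke1.diamondMF l 1 d G = (fun d : (ZMod l)ˣ => χ (d : ZMod l)) d • G :=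
    fun d => Hecke1.diamondMF_eq_smul_of_slash G (fun x => χ x) (fun γ hγ => hG γ hγ) d
  have h := Hecke1.diamond_mulLevel_of_eigen f G _ _ hf hE u
  apply DFunLike.coe_injective
  have h' := congrArg (fun F : CuspForm (Gamma1 (N * l)) (1 + 1) => (⇑F : ℍ → ℂ)) h
  exact h'

/-- The nebentypus at a unit congruent to an integer `q`. -/
theorem diamond_prodFG_prime (u : (ZMod (N * l))ˣ) (q : ℕ)
    (hu : (u : ZMod (N * l)) = (q : ZMod (N * l))) :
    Hecke1.diamond (N * l) 2 u (prodFG f G)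
      = (ε (q : ZMod N) * χ (q : ZMod l)) • prodFG f G := by
  rw [diamond_prodFG ε f hT χ G hG u, hu, ZMod.cast_natCast (Dvd.intro l rfl) q,
    ZMod.cast_natCast (Dvd.intro_left N rfl) q]

/-- **The `q`-coefficients of `T_q g`**, `q ∤ N l` prime, in the shape of `Denom.step2`. -/
theorem qCoeff_heckeT1_prodFG {q : ℕ} (hq : q.Prime) (hqM : ¬ q ∣ N * l)
    (c : ℕ → 𝔸) (hc : ∀ n, qCoeff G n = (c n : ℂ)) (n : ℕ) :
    qCoeff (Hecke1.heckeT1 (N * l) 2 hq hqM (prodFG f G)) n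
      = Denom.cauchy (qCoeff f) c (q * n)
        + (q : ℂ) * (ε (q : ZMod N) * χ (q : ZMod l))
          * (if q ∣ n then Denom.cauchy (qCoeff f) c (n / q) else 0) := by
  have hd := diamond_prodFG_prime ε f hT χ G hG (Hecke1.primeUnit hq hqM) q
    (Hecke1.coe_primeUnit hq hqM)
  have hsm : ∀ m, qCoeff (⇑((ε (q : ZMod N) * χ (q : ZMod l)) • prodFG f G)) m
      = (ε (q : ZMod N) * χ (q : ZMod l)) * qCoeff (prodFG f G) m := fun m =>
    Hecke1.qCoeff_smul (Hecke1.hasQ_of_form (prodFG f G)) _ m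
  rw [Hecke1.qCoeff_heckeT1, hd, hsm, qCoeff_prodFG_cauchy f G c hc,
    qCoeff_prodFG_cauchy f G c hc, mul_comm n q]
  split_ifs
  · norm_num
    ring
  · simp

/-- `T_q g` is a `⟨u⟩`-eigenvector with the same eigenvalue as `g`. -/
theorem diamond_heckeT1_prodFG {q : ℕ} (hq : q.Prime) (hqM : ¬ q ∣ N * l)
    (u : (ZMod (N * l))ˣ) :
    Hecke1.diamond (N * l) 2 u (Hecke1.heckeT1 (N * l) 2 hq hqM (prodFG f G))
      = (ε (((u : ZMod (N * l)).cast : ZMod N)) * χ (((u : ZMod (N * l)).cast : ZMod l)))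
          • Hecke1.heckeT1 (N * l) 2 hq hqM (prodFG f G) := by
  rw [Hecke1.diamond_heckeT1, diamond_prodFG ε f hT χ G hG u, map_smul]

/-- `T_q g - α g` is a `⟨u⟩`-eigenvector with the same eigenvalue as `g`. -/
theorem diamond_heckeT1_sub_prodFG {q : ℕ} (hq : q.Prime) (hqM : ¬ q ∣ N * l) (α : ℂ)
    (u : (ZMod (N * l))ˣ) :
    Hecke1.diamond (N * l) 2 u (Hecke1.heckeT1 (N * l) 2 hq hqM (prodFG f G) - α • prodFG f G)
      = (ε (((u : ZMod (N * l)).cast : ZMod N)) * χ (((u : ZMod (N * l)).cast : ZMod l)))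
          • (Hecke1.heckeT1 (N * l) 2 hq hqM (prodFG f G) - α • prodFG f G) := by
  rw [map_sub, map_smul, diamond_heckeT1_prodFG ε f hT χ G hG hq hqM u,
    diamond_prodFG ε f hT χ G hG u, smul_sub, smul_comm]

/-- The `q`-coefficients of `T_q g - α g`: exactly the expression of `Denom.step2`. -/
theorem qCoeff_heckeT1_sub_prodFG {q : ℕ} (hq : q.Prime) (hqM : ¬ q ∣ N * l) (α : ℂ)
    (c : ℕ → 𝔸) (hc : ∀ n, qCoeff G n = (c n : ℂ)) (n : ℕ) :
    qCoeff (⇑(Hecke1.heckeT1 (N * l) 2 hq hqM (prodFG f G) - α • prodFG f G)) n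
      = Denom.cauchy (qCoeff f) c (q * n)
        + (q : ℂ) * (ε (q : ZMod N) * χ (q : ZMod l))
          * (if q ∣ n then Denom.cauchy (qCoeff f) c (n / q) else 0)
        - α * Denom.cauchy (qCoeff f) c n := by
  have hsub : qCoeff (⇑(Hecke1.heckeT1 (N * l) 2 hq hqM (prodFG f G) - α • prodFG f G)) n
      = qCoeff (⇑(Hecke1.heckeT1 (N * l) 2 hq hqM (prodFG f G))) n
        - qCoeff (α • ⇑(prodFG f G)) n :=
    Hecke1.qCoeff_sub (Hecke1.hasQ_of_form (Hecke1.heckeT1 (N * l) 2 hq hqM (prodFG f G)))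
      ((Hecke1.hasQ_of_form (prodFG f G)).smul α) n
  rw [hsub, qCoeff_heckeT1_prodFG ε f hT χ G hG hq hqM c hc n,
    Hecke1.qCoeff_smul (Hecke1.hasQ_of_form (prodFG f G)) α n, qCoeff_prodFG_cauchy f G c hc]

/-- The `q`-coefficients of `⟨u⟩ g`. -/
theorem qCoeff_diamond_prodFG (u : (ZMod (N * l))ˣ) (c : ℕ → 𝔸)
    (hc : ∀ n, qCoeff G n = (c n : ℂ)) (n : ℕ) :
    qCoeff (⇑(Hecke1.diamond (N * l) 2 u (prodFG f G))) n
      = (ε (((u : ZMod (N * l)).cast : ZMod N)) * χ (((u : ZMod (N * l)).cast : ZMod l)))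
          * Denom.cauchy (qCoeff f) c n := by
  rw [diamond_prodFG ε f hT χ G hG u]
  exact (Hecke1.qCoeff_smul (Hecke1.hasQ_of_form (prodFG f G)) _ n).trans
    (by rw [qCoeff_prodFG_cauchy f G c hc])

/-- The `q`-coefficients of `⟨u⟩ (T_q g - α g)`: the nebentypus value times the expression of
`Denom.step2`. -/
theorem qCoeff_diamond_heckeT1_sub_prodFG {q : ℕ} (hq : q.Prime) (hqM : ¬ q ∣ N * l) (α : ℂ)
    (c : ℕ → 𝔸) (hc : ∀ n, qCoeff G n = (c n : ℂ)) (u : (ZMod (N * l))ˣ) (n : ℕ) :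
    qCoeff (⇑(Hecke1.diamond (N * l) 2 u
        (Hecke1.heckeT1 (N * l) 2 hq hqM (prodFG f G) - α • prodFG f G))) n
      = (ε (((u : ZMod (N * l)).cast : ZMod N)) * χ (((u : ZMod (N * l)).cast : ZMod l)))
          * (Denom.cauchy (qCoeff f) c (q * n)
            + (q : ℂ) * (ε (q : ZMod N) * χ (q : ZMod l))
              * (if q ∣ n then Denom.cauchy (qCoeff f) c (n / q) else 0)
            - α * Denom.cauchy (qCoeff f) c n) := by
  rw [diamond_heckeT1_sub_prodFG ε f hT χ G hG hq hqM α u]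
  exact (Hecke1.qCoeff_smul (Hecke1.hasQ_of_form
      (Hecke1.heckeT1 (N * l) 2 hq hqM (prodFG f G) - α • prodFG f G)) _ n).trans
    (by rw [qCoeff_heckeT1_sub_prodFG ε f hT χ G hG hq hqM α c hc n])

end neben

end Fermat.Agent.S48.ERes.FG
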